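import Fermat.Agent.S33Lib.Strict
import Fermat.Agent.OrdP.StarFin

/-!
# S33 and R5, unconditionally
-/

set_option autoImplicit false
set_option linter.style.haveILetI false

open IsLocalRing Polynomial CongruenceSubgroup ModularFormClass CuspForm

namespace Fermat.Agent.S33Lib

theorem newformStarP (p : ℕ) : NewformStarP p := by
  intro M hM0 g hg hp hpM hp2M S hpS hS R _ _ _ _ _ _ hpR D ι hD hvD ρ hρ habs
  obtain ⟨M', hM'⟩ : ∃ M', M = M' * p := by
    obtain ⟨M', h⟩ := hpM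
    exact ⟨M', by rw [h, mul_comm]⟩
  subst hM'
  haveI : Fact p.Prime := ⟨hp⟩
  haveI : NeZero M' := ⟨fun h => NeZero.ne (M' * p) (by rw [h, zero_mul])⟩
  haveI : NeZero p := ⟨hp.ne_zero⟩
  have hvM' : ¬ p ∣ M' := by
    rintro ⟨k, rfl⟩
    exact hp2M ⟨k, by ring⟩
  exact OrdP.starAtRep_newform_self hvM' hg hpS hS hpR hD hvD ρ hρ habs

/-- **R5** -/
theorem nfOrdStmt : LL.NFOrdStmt := nfOrd_of fun p _ _ => newformStarP p

end Fermat.Agent.S33Lib
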