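import Fermat.Agent.Flat.RedZ
import Fermat.Agent.Flat.Global
import Fermat.Agent.CFT.Loc.Dict

/-!
# Flat and residually ordinary representations over discrete valuation rings

For a flat representation over a discrete valuation ring which is ordinary modulo the maximal
ideal, `(ρ σ - det (ρ σ)) (ρ τ - 1) = 0` for all `σ, τ` in inertia at `p`.
-/

set_option autoImplicit false
set_option linter.unusedSectionVars false

open GaloisRep Fermat.Agent.CFT.Loc Fermat.Agent.CFT IsLocalRing Fermat.Agent.Flat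
open scoped Pointwise

namespace Fermat.Agent.S33Lib

local notation "Γℚ" => (AlgebraicClosure ℚ ≃ₐ[ℚ] AlgebraicClosure ℚ)

variable {p : ℕ} [hp : Fact p.Prime]

/-- multiplication by an element as a map between quotients -/
noncomputable def mulQ {R V : Type*} [CommRing R] [AddCommGroup V] [Module R V] (a : R)
    (P Q : Submodule R V) (h : ∀ v ∈ P, a • v ∈ Q) : (V ⧸ P) →ₗ[R] (V ⧸ Q) :=
  Submodule.mapQ P Q (LinearMap.lsmul R V a) (fun v hv => h v hv)

theorem mulQ_mkQ {R V : Type*} [CommRing R] [AddCommGroup V] [Module R V] (a : R)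
    (P Q : Submodule R V) (h : ∀ v ∈ P, a • v ∈ Q) (v : V) :
    mulQ a P Q h (Submodule.mkQ P v) = Submodule.mkQ Q (a • v) := rfl

section DVR

variable {R : Type} [CommRing R] [IsDomain R] [IsDiscreteValuationRing R]
  [Finite (ResidueField R)]

/-- the submodule spanned by the `ρ τ v - v`, `τ` in inertia -/
def inD (ρ : GaloisRepAdic R) (p : ℕ) [Fact p.Prime] : Submodule R ρ.V :=
  Submodule.span R {x | ∃ τ ∈ inertiaLoc p, ∃ v, x = ρ.ρ (localGaloisToGlobal p τ) v - v}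

theorem mem_inD (ρ : GaloisRepAdic R) {τ : GalLoc p} (hτ : τ ∈ inertiaLoc p) (v : ρ.V) :
    ρ.ρ (localGaloisToGlobal p τ) v - v ∈ inD ρ p :=
  Submodule.subset_span ⟨τ, hτ, v, rfl⟩

theorem mem_smul_top_iff {V : Type*} [AddCommGroup V] [Module R V] (a : R) (v : V) :
    v ∈ (Ideal.span {a}) • (⊤ : Submodule R V) ↔ ∃ w, v = a • w := by
  rw [Submodule.ideal_span_singleton_smul]
  constructor
  · intro h
    obtain ⟨w, -, hw⟩ := Submodule.mem_smul_pointwise_iff_exists _ _ _ |>.mp h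
    exact ⟨w, hw.symm⟩
  · rintro ⟨w, rfl⟩
    exact Submodule.smul_mem_pointwise_smul _ _ _ Submodule.mem_top

theorem coord_ne_zero (hp2 : p ≠ 2) (hpR : (p : R) ∈ maximalIdeal R) {ρ : GaloisRepAdic R}
    (hfl : ρ.IsFlatAt p) (b : Module.Basis (Fin 2) R ρ.V)
    (hb : ∀ τ ∈ inertiaLoc p, ∀ v, b.repr (ρ.ρ (localGaloisToGlobal p τ) v - v) 1 ∈ maximalIdeal R)
    {d : ρ.V} (hd : d ∈ inD ρ p) (h0 : b.repr d 0 = 0) : d = 0 := by
  classical
  by_contra hd0
  have hdb : d = b.repr d 1 • b 1 := by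
    conv_lhs => rw [← b.sum_repr d]
    rw [Fin.sum_univ_two, h0, zero_smul, zero_add]
  have hy : b.repr d 1 ≠ 0 := by
    intro h
    rw [h, zero_smul] at hdb
    exact hd0 hdb
  obtain ⟨ϖ, hϖ⟩ := IsDiscreteValuationRing.exists_irreducible R
  obtain ⟨k, u, hk⟩ := IsDiscreteValuationRing.eq_unit_mul_pow_irreducible hy hϖ
  have hm : maximalIdeal R = Ideal.span {ϖ} := hϖ.maximalIdeal_eq
  have hϖ0 : ϖ ≠ 0 := hϖ.ne_zero
  rw [isFlatAt_iff] at hfl
  set I : Ideal R := Ideal.span {ϖ ^ (k + 1)} with hI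
  set J : Ideal R := Ideal.span {ϖ} with hJ
  have hfinJ : Finite (R ⧸ J) := by
    rw [← hm]
    exact inferInstanceAs (Finite (ResidueField R))
  have hfinI : Finite (R ⧸ I) := by
    rw [hI, ← Ideal.span_singleton_pow]
    exact Ideal.finite_quotient_pow (IsNoetherian.noetherian _) _
  have : Finite (ρ.V ⧸ (J • (⊤ : Submodule R ρ.V))) := finite_level ρ J
  obtain ⟨O, hO⟩ := IsFlat.toLocal (hfl.2 I hfinI)
  -- the injection
  have hi0 : ∀ v ∈ (J • (⊤ : Submodule R ρ.V)), ϖ ^ k • v ∈ (I • (⊤ : Submodule R ρ.V)) := by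
    intro v hv
    rw [hJ, mem_smul_top_iff] at hv
    obtain ⟨w, rfl⟩ := hv
    rw [hI, mem_smul_top_iff]
    exact ⟨w, by rw [smul_smul, pow_succ]⟩
  let i : (ρ.V ⧸ (J • (⊤ : Submodule R ρ.V))) →+ (ρ.V ⧸ (I • (⊤ : Submodule R ρ.V))) :=
    (mulQ (ϖ ^ k) _ _ hi0).toAddMonoidHom
  have hiv : ∀ v : ρ.V, i (Submodule.mkQ _ v) = Submodule.mkQ _ (ϖ ^ k • v) := fun v => rfl
  have hi : Function.Injective i := by
    rw [injective_iff_map_eq_zero]
    intro x hx
    obtain ⟨v, rfl⟩ := Submodule.mkQ_surjective _ x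
    rw [hiv, Submodule.mkQ_apply, Submodule.Quotient.mk_eq_zero, hI, mem_smul_top_iff] at hx
    obtain ⟨w, hw⟩ := hx
    rw [Submodule.mkQ_apply, Submodule.Quotient.mk_eq_zero, hJ, mem_smul_top_iff]
    refine ⟨w, ?_⟩
    rw [pow_succ, ← smul_smul] at hw
    have hinj : Function.Injective (fun x : ρ.V => ϖ ^ k • x) := by
      have : Module.IsTorsionFree R ρ.V := inferInstance
      exact smul_right_injective _ (pow_ne_zero k hϖ0)
    exact hinj hw
  -- the functional
  have hs0 : (J • (⊤ : Submodule R ρ.V)) ≤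
      LinearMap.ker ((Algebra.linearMap R (ResidueField R)).comp
        ((Finsupp.lapply 1).comp b.repr.toLinearMap)) := by
    intro v hv
    rw [hJ, mem_smul_top_iff] at hv
    obtain ⟨w, rfl⟩ := hv
    rw [LinearMap.mem_ker, LinearMap.map_smul, Algebra.smul_def]
    have : algebraMap R (ResidueField R) ϖ = 0 := by
      rw [ResidueField.algebraMap_eq, residue_eq_zero_iff, hm]
      exact Ideal.mem_span_singleton_self ϖ
    rw [this, zero_mul]
  let s : (ρ.V ⧸ (J • (⊤ : Submodule R ρ.V))) →+ ResidueField R :=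
    (Submodule.liftQ _ _ hs0).toAddMonoidHom
  have hsv : ∀ v : ρ.V, s (Submodule.mkQ _ v) = residue R (b.repr v 1) := fun v => rfl
  have hs : Function.Surjective s := by
    intro a
    obtain ⟨a, rfl⟩ := residue_surjective a
    refine ⟨Submodule.mkQ _ (a • b 1), ?_⟩
    rw [hsv, map_smul, Finsupp.smul_apply, b.repr_self, Finsupp.single_eq_same, smul_eq_mul,
      mul_one]
  have hmemD : ∀ x ∈ inD ρ p, ∀ r : R, Submodule.mkQ (I • (⊤ : Submodule R ρ.V)) (r • x) ∈
      connPart hO := by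
    intro x hx
    induction hx using Submodule.span_induction with
    | mem x hx =>
      obtain ⟨τ, hτ, v, rfl⟩ := hx
      intro r
      have h1 := sub_mem_connPart hO ⟨τ, hτ⟩ (Submodule.mkQ (I • (⊤ : Submodule R ρ.V)) (r • v))
      have h2 : ((levelHom ρ I).comp (inertiaToGlobal (p := p))) ⟨τ, hτ⟩
          (Submodule.mkQ (I • (⊤ : Submodule R ρ.V)) (r • v)) -
            Submodule.mkQ (I • (⊤ : Submodule R ρ.V)) (r • v) =
          Submodule.mkQ (I • (⊤ : Submodule R ρ.V))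
            (r • (ρ.ρ (localGaloisToGlobal p τ) v - v)) := by
        rw [smul_sub, map_sub, ← LinearMap.map_smul]
        rfl
      rw [h2] at h1
      exact h1
    | zero => intro r; rw [smul_zero, map_zero]; exact zero_mem _
    | add x y _ _ hx hy => intro r; rw [smul_add, map_add]; exact add_mem (hx r) (hy r)
    | smul a x _ hx => intro r; rw [smul_smul]; exact hx (r * a)
  have hres := conn_zero hp2 hO i hi ((levelHom ρ J).comp (inertiaToGlobal (p := p)))
    (fun g m => ?_) s hs (fun g m => ?_) (fun a => ?_)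
    (m := Submodule.mkQ _ ((u : R) • b 1)) ?_
  · rw [hsv, map_smul, Finsupp.smul_apply, b.repr_self, Finsupp.single_eq_same, smul_eq_mul,
      mul_one, residue_eq_zero_iff] at hres
    exact (mem_maximalIdeal _).mp hres u.isUnit
  · obtain ⟨v, rfl⟩ := Submodule.mkQ_surjective _ m
    have h1 : ((levelHom ρ J).comp (inertiaToGlobal (p := p))) g (Submodule.mkQ _ v) =
        Submodule.mkQ _ (ρ.ρ (localGaloisToGlobal p g) v) := rfl
    rw [h1, hiv, hiv, ← LinearMap.map_smul]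
    rfl
  · obtain ⟨v, rfl⟩ := Submodule.mkQ_surjective _ m
    have h1 : ((levelHom ρ J).comp (inertiaToGlobal (p := p))) g (Submodule.mkQ _ v) =
        Submodule.mkQ _ (ρ.ρ (localGaloisToGlobal p g) v) := rfl
    rw [h1, hsv, hsv, ← sub_eq_zero, ← map_sub, residue_eq_zero_iff]
    have h2 := hb g g.2 v
    rwa [map_sub, Finsupp.sub_apply] at h2
  · rw [nsmul_eq_mul]
    have h1 : ((p : ℕ) : ResidueField R) = 0 := by
      rw [← map_natCast (residue R), residue_eq_zero_iff]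
      exact hpR
    rw [h1, zero_mul]
  · rw [hiv, smul_smul, mul_comm, ← hk, ← hdb]
    have := hmemD d hd 1
    rwa [one_smul] at this

end DVR

section Alg

/-- rank one perturbations of the identity -/
theorem apply_eq_det_smul {R V : Type*} [CommRing R] [IsDomain R] [AddCommGroup V] [Module R V]
    (b : Module.Basis (Fin 2) R V) (D : Submodule R V)
    (hD : ∀ d ∈ D, b.repr d 0 = 0 → d = 0) (X : V →ₗ[R] V) (hX : ∀ v, X v - v ∈ D) {d : V}
    (hd : d ∈ D) : X d = LinearMap.det X • d := by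
  classical
  have : Module.Free R V := Module.Free.of_basis b
  have : Module.Finite R V := Module.Finite.of_basis b
  have htf : Module.IsTorsionFree R V := inferInstance
  by_cases hd0 : d = 0
  · rw [hd0, map_zero, smul_zero]
  have hx : b.repr d 0 ≠ 0 := fun h => hd0 (hD d hd h)
  -- proportionality
  have hprop : ∀ e ∈ D, ∀ i, b.repr d 0 * b.repr e i = b.repr e 0 * b.repr d i := by
    intro e he i
    have h1 : b.repr d 0 • e - b.repr e 0 • d ∈ D :=
      D.sub_mem (D.smul_mem _ he) (D.smul_mem _ hd)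
    have h2 := hD _ h1 (by
      rw [map_sub, map_smul, map_smul, Finsupp.sub_apply, Finsupp.smul_apply, Finsupp.smul_apply,
        smul_eq_mul, smul_eq_mul, mul_comm, sub_self])
    have h3 := congrArg (fun v => b.repr v i) h2
    simp only [map_sub, map_smul, Finsupp.sub_apply, Finsupp.smul_apply, smul_eq_mul, map_zero,
      Finsupp.zero_apply] at h3
    exact sub_eq_zero.mp h3
  have hmat : ∀ i j, LinearMap.toMatrix b b X i j = b.repr (X (b j)) i := fun i j =>
    LinearMap.toMatrix_apply _ _ _ _ _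
  set P := LinearMap.toMatrix b b X with hP
  have hdet : LinearMap.det X = P 0 0 * P 1 1 - P 0 1 * P 1 0 := by
    rw [← LinearMap.det_toMatrix b, Matrix.det_fin_two]
  have hXd : ∀ i, b.repr (X d) i = P i 0 * b.repr d 0 + P i 1 * b.repr d 1 := by
    intro i
    have h1 := congrFun (LinearMap.toMatrix_mulVec_repr b b X d) i
    rw [Matrix.mulVec, dotProduct, Fin.sum_univ_two] at h1
    exact h1.symm
  have h0 := hprop _ (hX (b 0)) 1
  have h1 := hprop _ (hX (b 1)) 1
  simp only [map_sub, Finsupp.sub_apply, ← hmat, b.repr_self] at h0 h1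
  rw [Finsupp.single_eq_same] at h0 h1
  rw [Finsupp.single_eq_of_ne (by decide)] at h0 h1
  rw [sub_zero] at h0 h1
  set x := b.repr d 0
  set y := b.repr d 1
  apply b.repr.injective
  ext i
  rw [map_smul, Finsupp.smul_apply, smul_eq_mul, hdet, hXd]
  apply mul_left_cancel₀ hx
  fin_cases i
  · change x * (P 0 0 * x + P 0 1 * y) = x * ((P 0 0 * P 1 1 - P 0 1 * P 1 0) * x)
    linear_combination (x * P 0 1) * h0 - (x * P 0 0) * h1
  · change x * (P 1 0 * x + P 1 1 * y) = x * ((P 0 0 * P 1 1 - P 0 1 * P 1 0) * y)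
    linear_combination (x + y * P 0 1) * h0 + (y - y * P 0 0) * h1

end Alg

section Main

variable {R : Type} [CommRing R] [IsDomain R] [IsDiscreteValuationRing R]
  [Finite (ResidueField R)]

/-- **Flat and residually ordinary**, standard place. -/
theorem star_of_flat_loc (hp2 : p ≠ 2) (hpR : (p : R) ∈ maximalIdeal R) {ρ : GaloisRepAdic R}
    (hfl : ρ.IsFlatAt p) (b : Module.Basis (Fin 2) R ρ.V)
    (hb : ∀ τ ∈ inertiaLoc p, ∀ v, b.repr (ρ.ρ (localGaloisToGlobal p τ) v - v) 1 ∈ maximalIdeal R)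
    {σ τ : GalLoc p} (hσ : σ ∈ inertiaLoc p) (hτ : τ ∈ inertiaLoc p) (v : ρ.V) :
    ρ.ρ (localGaloisToGlobal p σ) (ρ.ρ (localGaloisToGlobal p τ) v - v) =
      LinearMap.det (ρ.ρ (localGaloisToGlobal p σ)) •
        (ρ.ρ (localGaloisToGlobal p τ) v - v) :=
  apply_eq_det_smul b (inD ρ p) (fun _ hd h0 => coord_ne_zero hp2 hpR hfl b hb hd h0) _
    (fun v => mem_inD ρ hσ v) (mem_inD ρ hτ v)

theorem ρ_mul_apply {R : Type} [CommRing R] [IsLocalRing R] (ρ : GaloisRepAdic R) (g h : Γℚ)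
    (v : ρ.V) : ρ.ρ (g * h) v = ρ.ρ g (ρ.ρ h v) := by rw [map_mul]; rfl

/-- the automorphism attached to a Galois element -/
noncomputable def autEq {R : Type} [CommRing R] [IsLocalRing R] (ρ : GaloisRepAdic R) (g : Γℚ) :
    ρ.V ≃ₗ[R] ρ.V :=
  LinearEquiv.ofLinearMap (ρ.ρ g) (ρ.ρ g⁻¹)
    (by rw [← Module.End.mul_eq_comp, ← map_mul, mul_inv_cancel, map_one]; rfl)
    (by rw [← Module.End.mul_eq_comp, ← map_mul, inv_mul_cancel, map_one]; rfl)

theorem autEq_apply {R : Type} [CommRing R] [IsLocalRing R] (ρ : GaloisRepAdic R) (g : Γℚ)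
    (v : ρ.V) : autEq ρ g v = ρ.ρ g v := rfl

theorem autEq_symm_apply {R : Type} [CommRing R] [IsLocalRing R] (ρ : GaloisRepAdic R) (g : Γℚ)
    (v : ρ.V) : (autEq ρ g).symm v = ρ.ρ g⁻¹ v := rfl

/-- **Flat and residually ordinary** at an arbitrary place. -/
theorem star_of_flat (hp2 : p ≠ 2) (hpR : (p : R) ∈ maximalIdeal R) {ρ : GaloisRepAdic R}
    (hfl : ρ.IsFlatAt p) {P : ValuationSubring (AlgebraicClosure ℚ)} (hP : P.LiesOverPrime p)
    (b : Module.Basis (Fin 2) R ρ.V)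
    (hb : ∀ τ ∈ P.inertiaSubgroupIn ℚ, ∀ v, b.repr (ρ.ρ τ v - v) 1 ∈ maximalIdeal R)
    {σ τ : Γℚ} (hσ : σ ∈ P.inertiaSubgroupIn ℚ) (hτ : τ ∈ P.inertiaSubgroupIn ℚ) (v : ρ.V) :
    ρ.ρ σ (ρ.ρ τ v - v) = LinearMap.det (ρ.ρ σ) • (ρ.ρ τ v - v) := by
  obtain ⟨g, rfl⟩ := exists_eq_smul_padicPlace p hP
  have hdec : ∀ σ ∈ (g • padicPlace p).inertiaSubgroupIn ℚ, ∃ σ' ∈ inertiaLoc p,
      σ = rg p g σ' := by
    intro σ hσ
    have h1 : σ ∈ (rg p g).range := by
      rw [range_rg]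
      exact ((Frob.mem_inertiaSubgroupIn_iff _ _).1 hσ).1
    obtain ⟨σ', rfl⟩ := h1
    exact ⟨σ', (rg_mem_inertia_iff p g σ').1 hσ, rfl⟩
  obtain ⟨σ', hσ', rfl⟩ := hdec σ hσ
  obtain ⟨τ', hτ', rfl⟩ := hdec τ hτ
  let b' : Module.Basis (Fin 2) R ρ.V := b.map (autEq ρ g).symm
  have hb' : ∀ (w : ρ.V) (i : Fin 2), b'.repr w i = b.repr (ρ.ρ g w) i := fun w i => rfl
  have key := star_of_flat_loc hp2 hpR hfl b' (fun t ht w => ?_) hσ' hτ' (ρ.ρ g⁻¹ v)
  · have hdet : LinearMap.det (ρ.ρ (rg p g σ')) =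
        LinearMap.det (ρ.ρ (localGaloisToGlobal p σ')) := by
      have h : LinearMap.det (ρ.ρ g) * LinearMap.det (ρ.ρ g⁻¹) = 1 := by
        rw [← map_mul, ← map_mul, mul_inv_cancel, map_one, map_one]
      rw [rg_apply, map_mul, map_mul, map_mul, map_mul]
      linear_combination LinearMap.det (ρ.ρ (localGaloisToGlobal p σ')) * h
    have h1 : ∀ (t : GalLoc p) (w : ρ.V), ρ.ρ (rg p g t) w =
        ρ.ρ g (ρ.ρ (localGaloisToGlobal p t) (ρ.ρ g⁻¹ w)) := by
      intro t w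
      rw [rg_apply, ρ_mul_apply, ρ_mul_apply]
    have h2 : ∀ w : ρ.V, ρ.ρ g (ρ.ρ g⁻¹ w) = w := fun w => by
      rw [← ρ_mul_apply, mul_inv_cancel, map_one]; rfl
    have h3 : ∀ w : ρ.V, ρ.ρ g⁻¹ (ρ.ρ g w) = w := fun w => by
      rw [← ρ_mul_apply, inv_mul_cancel, map_one]; rfl
    have h4 : ρ.ρ (rg p g τ') v - v =
        ρ.ρ g (ρ.ρ (localGaloisToGlobal p τ') (ρ.ρ g⁻¹ v) - ρ.ρ g⁻¹ v) := by
      rw [map_sub (ρ.ρ g), h2, h1]
    rw [hdet, h4, h1 σ', h3, key, LinearMap.map_smul]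
  · rw [hb', map_sub]
    have h1 := hb (rg p g t) ((rg_mem_inertia_iff p g t).2 ht) (ρ.ρ g w)
    have h2 : ρ.ρ (rg p g t) (ρ.ρ g w) = ρ.ρ g (ρ.ρ (localGaloisToGlobal p t) w) := by
      rw [← ρ_mul_apply, ← ρ_mul_apply, rg_apply, inv_mul_cancel_right]
    rwa [h2] at h1

end Main

end Fermat.Agent.S33Lib
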