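import Fermat.Agent.Frob.Places
import Fermat.Prelude.Def_GaloisRep_LocalConditions

/-!
# From the relation `(ρ σ - det (ρ σ)) (ρ τ - 1) = 0` to ordinary representations
-/

set_option autoImplicit false
set_option linter.unusedSectionVars false

open IsLocalRing
open scoped Pointwise

namespace Fermat.Agent.S33Lib

local notation "Γℚ" => (AlgebraicClosure ℚ ≃ₐ[ℚ] AlgebraicClosure ℚ)

section Alg

variable {T V : Type*} [CommRing T] [IsLocalRing T] [AddCommGroup V] [Module T V]

theorem exists_eigenbasis_aux (b : Module.Basis (Fin 2) T V) (X : V →ₗ[T] V) {c : T}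
    (hc : IsUnit (c - 1)) (hcu : IsUnit c) (hdet : LinearMap.det X = c)
    (hX : ∀ v, X (X v - v) = c • (X v - v)) :
    (∃ b' : Module.Basis (Fin 2) T V, X (b' 0) = c • b' 0 ∧ X (b' 1) = b' 1) := by
  classical
  have hmat : ∀ (b : Module.Basis (Fin 2) T V) i j, LinearMap.toMatrix b b X i j =
    b.repr (X (b j)) i := fun b i j => LinearMap.toMatrix_apply _ _ _ _ _
  have hdet' : ∀ b : Module.Basis (Fin 2) T V, LinearMap.toMatrix b b X 0 0 *
      LinearMap.toMatrix b b X 1 1 - LinearMap.toMatrix b b X 0 1 *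
        LinearMap.toMatrix b b X 1 0 = c := fun b => by
    rw [← hdet, ← LinearMap.det_toMatrix b, Matrix.det_fin_two]
  have hXv : ∀ (b : Module.Basis (Fin 2) T V) (v : V) (i : Fin 2), b.repr (X v) i =
      LinearMap.toMatrix b b X i 0 * b.repr v 0 + LinearMap.toMatrix b b X i 1 * b.repr v 1 := by
    intro b v i
    have h1 := congrFun (LinearMap.toMatrix_mulVec_repr b b X v) i
    rw [Matrix.mulVec, dotProduct, Fin.sum_univ_two] at h1
    exact h1.symm
  have hXb : ∀ (b : Module.Basis (Fin 2) T V) (v : V) (i : Fin 2),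
      b.repr (X (X v - v)) i = c * (b.repr (X v) i - b.repr v i) := by
    intro b v i
    rw [hX, map_smul, map_sub, Finsupp.smul_apply, Finsupp.sub_apply, smul_eq_mul]
  -- the trace
  have htr : ∀ b : Module.Basis (Fin 2) T V, LinearMap.toMatrix b b X 0 0 +
      LinearMap.toMatrix b b X 1 1 = c + 1 := by
    intro b
    have h00 := hXb b (b 0) 0
    have h01 := hXb b (b 0) 1
    have h10 := hXb b (b 1) 0
    have h11 := hXb b (b 1) 1
    have hd := hdet' b
    rw [hXv] at h00 h01 h10 h11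
    simp only [map_sub, Finsupp.sub_apply, ← hmat, b.repr_self] at h00 h01 h10 h11
    rw [Finsupp.single_eq_same] at h00 h01 h10 h11
    rw [Finsupp.single_eq_of_ne (by decide)] at h00 h01 h10 h11
    set p := LinearMap.toMatrix b b X 0 0
    set q := LinearMap.toMatrix b b X 0 1
    set r := LinearMap.toMatrix b b X 1 0
    set s := LinearMap.toMatrix b b X 1 1
    -- `t • X = 0`
    have e00 : (p + s - (c + 1)) * p = 0 := by linear_combination h00 + hd
    have e01 : (p + s - (c + 1)) * q = 0 := by linear_combination h10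
    have e10 : (p + s - (c + 1)) * r = 0 := by linear_combination h01
    have e11 : (p + s - (c + 1)) * s = 0 := by linear_combination h11 + hd
    have e : (p + s - (c + 1)) * c = 0 := by
      linear_combination (-(p + s - (c + 1))) * hd + s * e00 - r * e01
    have := hcu.mul_left_eq_zero.mp e
    linear_combination this
  -- a basis with unit corner
  obtain ⟨b, hb⟩ : ∃ b : Module.Basis (Fin 2) T V, IsUnit (LinearMap.toMatrix b b X 0 0 - 1) := by
    have h1 : IsUnit ((LinearMap.toMatrix b b X 0 0 - 1) + (LinearMap.toMatrix b b X 1 1 - 1)) := by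
      have : (LinearMap.toMatrix b b X 0 0 - 1) + (LinearMap.toMatrix b b X 1 1 - 1) = c - 1 := by
        linear_combination htr b
      rwa [this]
    rcases IsLocalRing.isUnit_or_isUnit_of_isUnit_add h1 with h | h
    · exact ⟨b, h⟩
    · refine ⟨b.reindex (Equiv.swap 0 1), ?_⟩
      rw [hmat] at h ⊢
      rw [Module.Basis.repr_reindex_apply, Module.Basis.reindex_apply]
      simpa using h
  set p := LinearMap.toMatrix b b X 0 0 with hp
  set q := LinearMap.toMatrix b b X 0 1 with hq
  set r := LinearMap.toMatrix b b X 1 0 with hr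
  set s := LinearMap.toMatrix b b X 1 1 with hs
  have ht := htr b
  have hd := hdet' b
  rw [← hp, ← hq, ← hr, ← hs] at hd
  rw [← hp, ← hs] at ht
  let v : Fin 2 → V := ![(p - 1) • b 0 + r • b 1, (-q) • b 0 + (p - 1) • b 1]
  have hv : IsUnit (b.det v) := by
    have h1 : b.det v = (p - 1) * (c - 1) := by
      rw [Module.Basis.det_apply, Matrix.det_fin_two]
      simp only [Module.Basis.toMatrix_apply, v, Matrix.cons_val_zero, Matrix.cons_val_one,
        map_add, map_smul, Finsupp.add_apply, Finsupp.smul_apply, b.repr_self, smul_eq_mul,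
        Matrix.cons_val_fin_one]
      rw [Finsupp.single_eq_same, Finsupp.single_eq_same, Finsupp.single_eq_of_ne (by decide),
        Finsupp.single_eq_of_ne (by decide)]
      linear_combination (-1 : T) * hd + p * ht
    rw [h1]
    exact hb.mul hc
  obtain ⟨hli, hsp⟩ := (b.is_basis_iff_det (v := v)).mpr hv
  have hsp' : ⊤ ≤ Submodule.span T (Set.range v) := hsp.ge
  refine ⟨Module.Basis.mk hli hsp', ?_, ?_⟩
  · rw [Module.Basis.mk_apply]
    apply b.repr.injective
    ext i
    rw [hXv, map_smul, Finsupp.smul_apply, smul_eq_mul]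
    simp only [v, Matrix.cons_val_zero, map_add, map_smul, Finsupp.add_apply, Finsupp.smul_apply,
      b.repr_self, smul_eq_mul]
    fin_cases i
    · simp
      rw [← hp, ← hq]
      linear_combination (-1 : T) * hd + p * ht
    · simp
      rw [← hr, ← hs]
      linear_combination r * ht
  · rw [Module.Basis.mk_apply]
    apply b.repr.injective
    ext i
    rw [hXv]
    simp only [v, Matrix.cons_val_one, Matrix.cons_val_fin_one, map_add, map_smul,
      Finsupp.add_apply, Finsupp.smul_apply, b.repr_self, smul_eq_mul]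
    fin_cases i
    · simp
      rw [← hp, ← hq]
      ring
    · simp
      rw [← hr, ← hs]
      linear_combination hd - ht

end Alg

section Inertia

variable {P : ValuationSubring (AlgebraicClosure ℚ)}

theorem conj_mem_inertia_of_mem {g τ : Γℚ} (hg : g ∈ P.decompositionSubgroup ℚ)
    (hτ : τ ∈ P.inertiaSubgroupIn ℚ) : g * τ * g⁻¹ ∈ P.inertiaSubgroupIn ℚ := by
  have h1 : g • P = P := MulAction.mem_stabilizer_iff.mp hg
  rw [← h1, Frob.mem_inertiaSubgroupIn_smul_iff]
  have h2 : g⁻¹ * (g * τ * g⁻¹) * g = τ := by group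
  rwa [h2]

end Inertia

/-- **the line** of an ordinary representation -/
theorem exists_line {T : Type} [CommRing T] [IsLocalRing T] (ρ : GaloisRepAdic T)
    {P : ValuationSubring (AlgebraicClosure ℚ)} {σ₀ : Γℚ} (hσ₀ : σ₀ ∈ P.inertiaSubgroupIn ℚ)
    (hc : IsUnit (LinearMap.det (ρ.ρ σ₀) - 1))
    (hstar : ∀ τ ∈ P.inertiaSubgroupIn ℚ, ∀ v : ρ.V, ρ.ρ σ₀ (ρ.ρ τ v - v) =
      LinearMap.det (ρ.ρ σ₀) • (ρ.ρ τ v - v)) :
    ∃ L : Submodule T ρ.V,
      (∃ b : Module.Basis (Fin 2) T ρ.V, L = Submodule.span T {b 0}) ∧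
      (∀ σ ∈ P.decompositionSubgroup ℚ, ∀ v ∈ L, ρ.ρ σ v ∈ L) ∧
      (∀ σ ∈ P.inertiaSubgroupIn ℚ, ∀ v : ρ.V, ρ.ρ σ v - v ∈ L) := by
  classical
  set c := LinearMap.det (ρ.ρ σ₀) with hcdef
  have hcu : IsUnit c := by
    have h : c * LinearMap.det (ρ.ρ σ₀⁻¹) = 1 := by
      rw [hcdef, ← map_mul, ← map_mul, mul_inv_cancel, map_one, map_one]
    exact IsUnit.of_mul_eq_one _ h
  obtain ⟨b, hb0, hb1⟩ := exists_eigenbasis_aux (Module.finBasisOfFinrankEq T ρ.V ρ.finrank_eq)
    (ρ.ρ σ₀) hc hcu rfl (hstar σ₀ hσ₀)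
  have hmem : ∀ v : ρ.V, ρ.ρ σ₀ v = c • v → v ∈ Submodule.span T {b 0} := by
    intro v hv
    have h1 : v = b.repr v 0 • b 0 + b.repr v 1 • b 1 := by
      conv_lhs => rw [← b.sum_repr v]
      rw [Fin.sum_univ_two]
    have h2 : b.repr (ρ.ρ σ₀ v) 1 = b.repr v 1 := by
      conv_lhs => rw [h1]
      rw [map_add, map_smul, map_smul, hb0, hb1, map_add, map_smul, map_smul, map_smul,
        Finsupp.add_apply, Finsupp.smul_apply, Finsupp.smul_apply, Finsupp.smul_apply,
        b.repr_self, b.repr_self, Finsupp.single_eq_same, Finsupp.single_eq_of_ne (by decide)]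
      simp
    rw [hv, map_smul, Finsupp.smul_apply, smul_eq_mul] at h2
    have h3 : b.repr v 1 = 0 := by
      have : (c - 1) * b.repr v 1 = 0 := by linear_combination h2
      exact hc.mul_right_eq_zero.mp this
    rw [h1, h3, zero_smul, add_zero]
    exact Submodule.smul_mem _ _ (Submodule.mem_span_singleton_self _)
  refine ⟨Submodule.span T {b 0}, ⟨b, rfl⟩, ?_, ?_⟩
  · intro g hg v hv
    obtain ⟨a, rfl⟩ := Submodule.mem_span_singleton.mp hv
    rw [LinearMap.map_smul]
    refine Submodule.smul_mem _ _ ?_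
    -- `(c - 1) • b 0 = ρ σ₀ (b 0) - b 0`
    have h1 : (c - 1) • ρ.ρ g (b 0) = ρ.ρ (g * σ₀ * g⁻¹) (ρ.ρ g (b 0)) - ρ.ρ g (b 0) := by
      have h2 : ρ.ρ (g * σ₀ * g⁻¹) (ρ.ρ g (b 0)) = ρ.ρ g (ρ.ρ σ₀ (b 0)) := by
        have : ∀ (x y : Γℚ) (w : ρ.V), ρ.ρ x (ρ.ρ y w) = ρ.ρ (x * y) w := fun x y w => by
          rw [map_mul]; rfl
        rw [this, this, inv_mul_cancel_right]
      rw [h2, hb0, LinearMap.map_smul, sub_smul, one_smul]
    have h3 : (c - 1) • ρ.ρ g (b 0) ∈ Submodule.span T {b 0} := by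
      rw [h1]
      exact hmem _ (hstar _ (conj_mem_inertia_of_mem hg hσ₀) _)
    obtain ⟨u, hu⟩ := hc
    have h4 : ρ.ρ g (b 0) = (↑u⁻¹ : T) • ((c - 1) • ρ.ρ g (b 0)) := by
      rw [← hu, smul_smul, Units.inv_mul, one_smul]
    rw [h4]
    exact Submodule.smul_mem _ _ h3
  · intro σ hσ v
    exact hmem _ (hstar σ hσ v)

end Fermat.Agent.S33Lib
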