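import Fermat.Agent.S33Lib.Sep
import Fermat.Agent.Newform.BadPrime
import Fermat.Agent.Eigenform.Eigenvector
import Fermat.Agent.Eigenform.Converse

/-!
# The newform attached to a point of the Hecke algebra
-/

set_option autoImplicit false
set_option linter.unusedSectionVars false

open IsLocalRing Polynomial CongruenceSubgroup ModularFormClass CuspForm

namespace Fermat.Agent.S33Lib

open Fermat.Agent.Newform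

/-- The newform attached to a point of the Hecke algebra, with coefficients in a subring of `ℂ`
mapping to the target. -/
theorem exists_newform_of_point {N : ℕ} [NeZero N] {S : Finset ℕ}
    (hNS : ∀ q : ℕ, q.Prime → q ∣ N → q ∈ S) {R : Type} [CommRing R] [IsDomain R]
    (ψ : heckeAlgebra N 2 (↑S : Set ℕ) →+* R) :
    ∃ (M : ℕ) (_ : NeZero M) (g : CuspForm (Gamma0 M) 2) (D : Subring ℂ) (ι : D →+* R),
      M ∣ N ∧ g.IsNewform ∧ ∃ hD : ∀ ℓ : ℕ, ℓ.Prime → ℓ ∉ S → qCoeff g ℓ ∈ D,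
        ∀ (ℓ : ℕ) (hℓ : ℓ.Prime) (hℓN : ¬ ℓ ∣ N) (hS : ℓ ∉ S) (hℓS : ℓ ∉ (↑S : Set ℕ)),
          ι ⟨_, hD ℓ hℓ hS⟩ = ψ (heckeAlgebra.T hℓ hℓN hℓS) := by
  classical
  have hprime : (RingHom.ker ψ).IsPrime := RingHom.ker_isPrime ψ
  obtain ⟨v, χ, hv0, hv, hker⟩ := Eigenform.exists_eigenvector_of_isPrime
    (V := CuspForm (Gamma0 N) 2) (T := heckeAlgebra N 2 (↑S : Set ℕ))
    ((heckeAlgebra N 2 (↑S : Set ℕ)).val.toRingHom) Subtype.val_injective (RingHom.ker ψ)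
  -- the eigenform
  let a : Nat.Primes → ℂ := fun ℓ => if h : ¬ (ℓ : ℕ) ∣ N ∧ (ℓ : ℕ) ∉ (↑S : Set ℕ) then
    χ (heckeAlgebra.T ℓ.2 h.1 h.2) else 0
  have ha : ∀ (ℓ : Nat.Primes) (h1 : ¬ (ℓ : ℕ) ∣ N) (h2 : (ℓ : ℕ) ∉ (↑S : Set ℕ)),
      a ℓ = χ (heckeAlgebra.T ℓ.2 h1 h2) := fun ℓ h1 h2 => dif_pos ⟨h1, h2⟩
  have hND : ∀ ℓ : ℕ, ℓ.Prime → ℓ ∉ S → ¬ ℓ ∣ N := fun ℓ hℓ hS h => hS (hNS ℓ hℓ h)
  obtain ⟨f', hf', hf'a⟩ := exists_eigenform {ℓ : Nat.Primes | (ℓ : ℕ) ∉ S} a hv0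
    (fun ℓ hℓ => by
      have hℓN := hND ℓ ℓ.2 hℓ
      have hℓS : (ℓ : ℕ) ∉ (↑S : Set ℕ) := fun h => hℓ (Finset.mem_coe.mp h)
      rw [hOp_of_not_dvd hℓN, ha ℓ hℓN hℓS]
      exact hv (heckeAlgebra.T ℓ.2 hℓN hℓS))
  obtain ⟨M, hMN, g, hg, hgf⟩ := exists_newform hf'
  have hM : NeZero M := ⟨fun h => by
    rw [h, zero_dvd_iff] at hMN
    exact NeZero.ne N hMN⟩
  have hcoef : ∀ (ℓ : ℕ) (hℓ : ℓ.Prime) (hℓN : ¬ ℓ ∣ N) (hS : ℓ ∉ S)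
      (hℓS : ℓ ∉ (↑S : Set ℕ)), qCoeff g ℓ = χ (heckeAlgebra.T hℓ hℓN hℓS) := by
    intro ℓ hℓ hℓN hS hℓS
    rw [hgf ℓ hℓ hℓN]
    have h1 := hf'a ⟨ℓ, hℓ⟩ hS
    rw [ha ⟨ℓ, hℓ⟩ hℓN hℓS] at h1
    exact h1
  let ι : χ.range →+* R := (Ideal.Quotient.lift (RingHom.ker χ) ψ
    (fun t ht => hker ht)).comp (RingHom.quotientKerEquivRange χ).symm.toRingHom
  have hι : ∀ t, ι ⟨χ t, ⟨t, rfl⟩⟩ = ψ t := by
    intro t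
    have h1 : (RingHom.quotientKerEquivRange χ).symm ⟨χ t, ⟨t, rfl⟩⟩ =
        Ideal.Quotient.mk (RingHom.ker χ) t := by
      rw [RingEquiv.symm_apply_eq]
      rfl
    change Ideal.Quotient.lift (RingHom.ker χ) ψ (fun t ht => hker ht)
      ((RingHom.quotientKerEquivRange χ).symm ⟨χ t, ⟨t, rfl⟩⟩) = ψ t
    rw [h1]
    rfl
  have hD : ∀ ℓ : ℕ, ℓ.Prime → ℓ ∉ S → qCoeff g ℓ ∈ χ.range := by
    intro ℓ hℓ hS
    have hℓS : ℓ ∉ (↑S : Set ℕ) := fun h => hS (Finset.mem_coe.mp h)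
    exact ⟨_, (hcoef ℓ hℓ (hND ℓ hℓ hS) hS hℓS).symm⟩
  refine ⟨M, hM, g, χ.range, ι, hMN, hg, hD, ?_⟩
  intro ℓ hℓ hℓN hS hℓS
  rw [← hι]
  congr 1
  exact Subtype.ext (hcoef ℓ hℓ hℓN hS hℓS)

end Fermat.Agent.S33Lib
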