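import Fermat.Agent.S33Lib.Flat
import Fermat.Agent.S33Lib.Ordi
import Fermat.Agent.S33Lib.Point
import Fermat.Agent.TwoAdic.Spec
import Fermat.Agent.S32Lib.Main
import Fermat.Agent.LL.DVRExt
import Fermat.Agent.LL.BN
import Fermat.Agent.DefRing.Rep
import Fermat.Agent.Cheb.DetCyc
import Fermat.Agent.CFT.SLevTame
import Fermat.Agent.Flat.RedClass

/-!
# S33 from the Steinberg condition at `p` for newforms of level exactly divisible by `p`
-/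

set_option autoImplicit false
set_option linter.unusedSectionVars false
set_option linter.style.haveILetI false

open IsLocalRing Polynomial CongruenceSubgroup ModularFormClass CuspForm
open scoped TensorProduct

namespace Fermat.Agent.S33Lib

open Fermat.Agent.Newform Fermat.Agent.DefRing Fermat.Agent.TwoAdic

local notation "Γℚ" => (AlgebraicClosure ℚ ≃ₐ[ℚ] AlgebraicClosure ℚ)
local notation "M₂" => Matrix (Fin 2) (Fin 2)

/-- The Steinberg condition at `p ∥ M` for the `p`-adic representation of a newform of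
level `M`, with the sign `a_p(g)`. -/
def NewformStarP (p : ℕ) : Prop :=
  ∀ {M : ℕ} [NeZero M] {g : CuspForm (Gamma0 M) 2}, g.IsNewform →
  p.Prime → p ∣ M → ¬ p ^ 2 ∣ M → ∀ (S : Finset ℕ), p ∈ S →
    (∀ q : ℕ, q.Prime → q ∣ M → q ∈ S) →
  ∀ (R : Type) [CommRing R] [IsDomain R] [IsDiscreteValuationRing R]
    [IsAdicComplete (maximalIdeal R) R] [Finite (ResidueField R)] [CharZero R],
    (p : R) ∈ maximalIdeal R → ∀ (D : Subring ℂ) (ι : D →+* R)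
    (hD : ∀ ℓ : ℕ, ℓ.Prime → ℓ ∉ S → qCoeff g ℓ ∈ D)
    (hv : qCoeff g p ∈ D) (ρ : GaloisRepAdic R),
    (∀ ℓ : ℕ, ∀ hℓ : ℓ.Prime, ∀ hS : ℓ ∉ S, ∀ P : ValuationSubring (AlgebraicClosure ℚ),
        P.LiesOverPrime ℓ → ∀ σ : Γℚ, P.IsFrobeniusAt σ ℓ →
        LinearMap.charpoly (ρ.ρ σ) = X ^ 2 - C (ι ⟨_, hD ℓ hℓ hS⟩) * X + C (ℓ : R)) →
    ρ.residual.IsAbsolutelyIrreducible →
  StarAtRep ρ p (ι ⟨_, hv⟩)

/-- The eigencharacter of a normalised eigenform, with values in a subring. -/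
theorem exists_chig' {M : ℕ} [NeZero M] {g : CuspForm (Gamma0 M) 2}
    (hg : g.IsNormalizedEigenform) (S : Finset ℕ) (hMS : ∀ q : ℕ, q.Prime → q ∣ M → q ∈ S)
    (D : Subring ℂ) (hD : ∀ ℓ : ℕ, ℓ.Prime → ℓ ∉ S → qCoeff g ℓ ∈ D) :
    ∃ chig : CuspForm.heckeAlgebra M 2 (↑S : Set ℕ) →+* ℂ,
      (∀ (ℓ : ℕ) (hℓ : ℓ.Prime) (hℓM : ¬ ℓ ∣ M) (hℓS : ℓ ∉ (↑S : Set ℕ)),
        chig (CuspForm.heckeAlgebra.T hℓ hℓM hℓS) = qCoeff g ℓ) ∧ chig.range ≤ D := by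
  obtain ⟨χ, hχ⟩ := Eigenform.exists_eigenChar hg (↑S : Set ℕ)
  have hg0 := Eigenform.ne_zero_of_isNormalizedEigenform hg
  have huniq : ∀ {x y : ℂ}, x • g = y • g → x = y := fun h => smul_left_injective ℂ hg0 h
  refine ⟨(algebraMap (integralClosure ℤ ℂ) ℂ).comp χ, ?_, ?_⟩
  · intro ℓ hℓ hℓM hℓS
    apply huniq
    rw [← Eigenform.heckeTLin_eigen hg hℓ hℓM]
    exact (hχ _).symm
  · rintro _ ⟨⟨t, ht⟩, rfl⟩
    have key : ∃ c ∈ D, t g = c • g := by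
      induction ht using Algebra.adjoin_induction with
      | mem x hx =>
        rcases hx with ⟨ℓ, hℓ, hℓN, hℓS, rfl⟩ | ⟨q, hqN, hq, hqS, rfl⟩
        · exact ⟨qCoeff g ℓ, hD ℓ hℓ (fun h => hℓS (Finset.mem_coe.mpr h)),
            Eigenform.heckeTLin_eigen hg hℓ hℓN⟩
        · exact absurd (Finset.mem_coe.mpr (hMS q hq hqN)) hqS
      | algebraMap r => exact ⟨r, intCast_mem D r, by
          simp only [Module.algebraMap_end_apply]; rw [Int.cast_smul_eq_zsmul]⟩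
      | add x y hx hy h1 h2 =>
        obtain ⟨a, ha, ha'⟩ := h1
        obtain ⟨b, hb, hb'⟩ := h2
        exact ⟨a + b, D.add_mem ha hb, by rw [LinearMap.add_apply, ha', hb', add_smul]⟩
      | mul x y hx hy h1 h2 =>
        obtain ⟨a, ha, ha'⟩ := h1
        obtain ⟨b, hb, hb'⟩ := h2
        exact ⟨a * b, D.mul_mem ha hb, by
          rw [Module.End.mul_apply, hb', map_smul, ha', smul_smul, mul_comm]⟩
    obtain ⟨c, hc, hc'⟩ := key
    have e : (χ ⟨t, ht⟩ : ℂ) = c := huniq ((hχ ⟨t, ht⟩).symm.trans hc')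
    change (χ ⟨t, ht⟩ : ℂ) ∈ D
    rw [e]
    exact hc

/-- inertia at `p` acts trivially on roots of unity of order prime to `p` -/
theorem isEven_of_mem_inertia {p : ℕ} (hp : p.Prime) {P : ValuationSubring (AlgebraicClosure ℚ)}
    (hP : P.LiesOverPrime p) {σ : Γℚ} (hσ : σ ∈ P.inertiaSubgroupIn ℚ) : IsEven p σ := by
  intro ζ hζ
  have hndvd : ¬ p ∣ p ^ 2 - 1 := by
    intro h
    have h1 : p ∣ p ^ 2 := dvd_pow_self p two_ne_zero
    have h2 : p ∣ p ^ 2 - (p ^ 2 - 1) := Nat.dvd_sub h1 h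
    have h4 : 1 ≤ p ^ 2 := Nat.one_le_pow _ _ hp.pos
    have h3 : p ^ 2 - (p ^ 2 - 1) = 1 := by omega
    rw [h3] at h2
    exact hp.one_lt.ne' (Nat.dvd_one.mp h2)
  exact CFT.inertia_apply_rootOfUnity hp hP hndvd hσ hζ

section Point

variable {p N : ℕ} [NeZero N] {S : Finset ℕ} {R : Type} [CommRing R] [IsDomain R]
  [IsDiscreteValuationRing R] [IsAdicComplete (maximalIdeal R) R] [Finite (ResidueField R)]
  [CharZero R]

/-- **The relation at a point.** -/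
theorem star_point (hG : NewformStarP p) (hp : p.Prime) (hp2 : p ≠ 2)
    (hNS : ∀ q : ℕ, q.Prime → q ∣ N → q ∈ S) (hpS : p ∈ S) (hpN : ¬ p ^ 2 ∣ N)
    (hpR : (p : R) ∈ maximalIdeal R) (ψ : heckeAlgebra N 2 (↑S : Set ℕ) →+* R)
    (ρ : GaloisRepAdic R)
    (hρ : ∀ (ℓ : ℕ) (hℓ : ℓ.Prime) (hℓN : ¬ ℓ ∣ N) (hℓS : ℓ ∉ (↑S : Set ℕ)),
      ∀ A : ValuationSubring (AlgebraicClosure ℚ), A.LiesOverPrime ℓ →
      ∀ σ : Γℚ, A.IsFrobeniusAt σ ℓ →
        LinearMap.charpoly (ρ.ρ σ) =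
          X ^ 2 - C (ψ (CuspForm.heckeAlgebra.T hℓ hℓN hℓS)) * X + C ((ℓ : R)))
    (habs : ρ.residual.IsAbsolutelyIrreducible) {P : ValuationSubring (AlgebraicClosure ℚ)}
    (hP : P.LiesOverPrime p) (b : Module.Basis (Fin 2) R ρ.V)
    (hb : ∀ τ ∈ P.inertiaSubgroupIn ℚ, ∀ v, b.repr (ρ.ρ τ v - v) 1 ∈ maximalIdeal R)
    {σ τ : Γℚ} (hσ : σ ∈ P.inertiaSubgroupIn ℚ) (hτ : τ ∈ P.inertiaSubgroupIn ℚ) (v : ρ.V) :
    ρ.ρ σ (ρ.ρ τ v - v) = LinearMap.det (ρ.ρ σ) • (ρ.ρ τ v - v) := by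
  have : Fact p.Prime := ⟨hp⟩
  obtain ⟨M, hM, g, D, ι, hMN, hg, hD, hι⟩ := exists_newform_of_point hNS ψ
  have hMS : ∀ q : ℕ, q.Prime → q ∣ M → q ∈ S := fun q hq hqM => hNS q hq (hqM.trans hMN)
  have hND : ∀ ℓ : ℕ, ℓ.Prime → ℓ ∉ S → ¬ ℓ ∣ N := fun ℓ hℓ hS h => hS (hNS ℓ hℓ h)
  have hρ' : ∀ ℓ : ℕ, ∀ hℓ : ℓ.Prime, ∀ hS : ℓ ∉ S,
      ∀ P : ValuationSubring (AlgebraicClosure ℚ), P.LiesOverPrime ℓ → ∀ σ : Γℚ,
        P.IsFrobeniusAt σ ℓ →
        LinearMap.charpoly (ρ.ρ σ) = X ^ 2 - C (ι ⟨_, hD ℓ hℓ hS⟩) * X + C (ℓ : R) := by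
    intro ℓ hℓ hS P hP σ hσ
    have hℓS : ℓ ∉ (↑S : Set ℕ) := fun h => hS (Finset.mem_coe.mp h)
    rw [hρ ℓ hℓ (hND ℓ hℓ hS) hℓS P hP σ hσ, hι ℓ hℓ (hND ℓ hℓ hS) hS hℓS]
  by_cases hpM : p ∣ M
  · -- the Steinberg case
    have hpM2 : ¬ p ^ 2 ∣ M := fun h => hpN (h.trans hMN)
    have h1 : qCoeff g p = 1 ∨ qCoeff g p = -1 := sq_eq_one_iff.mp
      (newform_exact hp hpM hpM2 hg)
    have hv : qCoeff g p ∈ D := by
      rcases h1 with h1 | h1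
      · rw [h1]; exact D.one_mem
      · rw [h1]; exact D.neg_mem D.one_mem
    have h2 := hG hg hp hpM hpM2 S hpS hMS R hpR D ι hD hv ρ hρ' habs P hP
      σ ((Frob.mem_inertiaSubgroupIn_iff _ _).1 hσ).1
      τ ((Frob.mem_inertiaSubgroupIn_iff _ _).1 hτ).1
    rw [unr, if_pos (isEven_of_mem_inertia hp hP hσ), unr,
      if_pos (isEven_of_mem_inertia hp hP hτ), mul_one, map_one] at h2
    have h3 := LinearMap.congr_fun h2 v
    rw [Module.End.mul_apply, LinearMap.sub_apply, LinearMap.sub_apply, LinearMap.zero_apply,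
      Module.End.one_apply, Module.algebraMap_end_apply, sub_eq_zero] at h3
    exact h3
  · -- the flat case
    obtain ⟨chig, hchig, hrange⟩ := exists_chig' hg.isNormalizedEigenform S hMS D hD
    set iota : chig.range →+* R := ι.comp (Subring.inclusion hrange) with hiota
    set χ := iota.comp chig.rangeRestrict with hχ
    have hχT : ∀ (ℓ : ℕ) (hℓ : ℓ.Prime) (hℓM : ¬ ℓ ∣ M) (hℓS : ℓ ∉ (↑S : Set ℕ)) (hS : ℓ ∉ S),
        χ (CuspForm.heckeAlgebra.T hℓ hℓM hℓS) = ι ⟨_, hD ℓ hℓ hS⟩ := by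
      intro ℓ hℓ hℓM hℓS hS
      rw [hχ, hiota, RingHom.comp_apply, RingHom.comp_apply]
      congr 1
      exact Subtype.ext (hchig ℓ hℓ hℓM hℓS)
    have hfl : ρ.IsFlatAt p := by
      refine S32Lib.isFlatAt hp hpM hpR hpS hMS χ ρ (fun ℓ hℓ hℓM hℓS _ A hA σ hσ => ?_) habs
      have hS : ℓ ∉ S := fun h => hℓS (Finset.mem_coe.mpr h)
      rw [hρ' ℓ hℓ hS A hA σ hσ, hχT ℓ hℓ hℓM hℓS hS]
    exact star_of_flat hp2 hpR hfl hP b hb hσ hτ v

end Point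

/-! ### the element of inertia -/

theorem isUnit_of_residue_ne {T : Type*} [CommRing T] [IsLocalRing T] {x : T}
    (h : residue T x ≠ 0) : IsUnit x := by
  by_contra hx
  exact h ((residue_eq_zero_iff x).mpr ((mem_maximalIdeal x).mpr hx))

theorem exists_inertia {p : ℕ} (hp : p.Prime) (hp2 : p ≠ 2) {T : Type} [CommRing T]
    [IsLocalRing T] {ρ : GaloisRepAdic T} (hdet : ρ.DetIsCyclotomic p)
    {P : ValuationSubring (AlgebraicClosure ℚ)} (hP : P.LiesOverPrime p) :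
    ∃ σ₀ ∈ P.inertiaSubgroupIn ℚ, IsUnit (LinearMap.det (ρ.ρ σ₀) - 1) := by
  have : Fact p.Prime := ⟨hp⟩
  obtain ⟨hpT, hdet⟩ := hdet
  have hpk : ((p : ℕ) : ResidueField T) = 0 := by
    rw [← map_natCast (residue T), residue_eq_zero_iff]
    exact hpT
  have hchar : CharP (ResidueField T) p := by
    refine (CharP.charP_iff_prime_eq_zero hp).mpr hpk
  obtain ⟨g, rfl⟩ := CFT.Loc.exists_eq_smul_padicPlace p hP
  obtain ⟨π, hπ⟩ := Flat.exists_isPi (p := p)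
  obtain ⟨ζ, hζ⟩ := Flat.exists_primitive (p := p)
  obtain ⟨σ₀, a, ha, hane⟩ := Flat.exists_cyc_ne hp2 hπ hζ (ResidueField T)
  refine ⟨CFT.Loc.rg p g σ₀, (CFT.Loc.rg_mem_inertia_iff p g σ₀).2 σ₀.2, ?_⟩
  have h1 : ∀ μ : AlgebraicClosure ℚ, μ ^ p ^ 1 = 1 → CFT.Loc.rg p g σ₀ μ = μ ^ a.val := by
    intro μ hμ
    rw [pow_one] at hμ
    apply CFT.Loc.jg_injective p g
    rw [CFT.Loc.jg_rg, map_pow]
    obtain ⟨i, -, hi⟩ := hζ.eq_pow_of_pow_eq_one (ξ := CFT.Loc.jg p g μ)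
      (by rw [← map_pow, hμ, map_one])
    rw [← hi, map_pow, ha, ← pow_mul, ← pow_mul, mul_comm]
  have h2 := hdet 1 _ _ h1
  rw [pow_one, Ideal.mem_span_singleton] at h2
  obtain ⟨c, hc⟩ := h2
  apply isUnit_of_residue_ne
  have h3 : LinearMap.det (ρ.ρ (CFT.Loc.rg p g σ₀)) - 1 = ((a.val : ℕ) : T) - 1 + (p : T) * c := by
    rw [← hc]; ring
  rw [h3, map_add, map_mul, map_sub, map_natCast, map_natCast, map_one, hpk, zero_mul, add_zero]
  exact sub_ne_zero.mpr hane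

/-! ### the datum -/

section Datum

variable {p : ℕ} {N : ℕ} [NeZero N] {S : Finset ℕ}
  {𝒪 : Type} [CommRing 𝒪] [IsDomain 𝒪] [IsDiscreteValuationRing 𝒪]
  [IsAdicComplete (IsLocalRing.maximalIdeal 𝒪) 𝒪]
  {θ : CuspForm.heckeAlgebra N 2 (↑S : Set ℕ) →+* IsLocalRing.ResidueField 𝒪}
  {T : Type} [CommRing T] [IsLocalRing T] [IsNoetherianRing T]
  [IsAdicComplete (IsLocalRing.maximalIdeal T) T] [Algebra 𝒪 T] [IsLocalHom (algebraMap 𝒪 T)]
  [Module.Finite 𝒪 T] [Module.Free 𝒪 T]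

/-- residual representations commute with base change -/
theorem absIrr_baseChange {A B : Type} [CommRing A] [IsLocalRing A] [CommRing B] [IsLocalRing B]
    (φ : A →+* B) (hφ : IsLocalHom φ) (ρ : GaloisRepAdic A)
    (h : ρ.residual.IsAbsolutelyIrreducible) :
    (ρ.baseChangeAlong φ hφ).residual.IsAbsolutelyIrreducible := by
  obtain ⟨r, hr⟩ := exists_realizes ρ
  have h1 := (hr.baseChange φ hφ).residual
  have h2 := hr.residual.baseChangeAlong (ResidueField.map φ)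
  have h3 : (fun σ => ((r σ).map φ).map (residue B)) =
      fun σ => ((r σ).map (residue A)).map (ResidueField.map φ) := by
    funext σ
    ext i j
    rfl
  rw [h3] at h1
  exact LL.absIrr_of_isEquiv (ResidueField.map φ) h (h1.isEquiv h2)

theorem star_datum [Finite (IsLocalRing.ResidueField 𝒪)] [CharZero 𝒪] (hG : NewformStarP p)
    (hp : p.Prime) (hp2 : p ≠ 2) (hp𝒪 : (p : 𝒪) ∈ IsLocalRing.maximalIdeal 𝒪)
    (hpN : ¬ p ^ 2 ∣ N) (hpS : p ∈ S) (hNS : ∀ q : ℕ, q.Prime → q ∣ N → q ∈ S)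
    (H : CuspForm.HeckeGaloisRepDatum N (↑S : Set ℕ) 𝒪 θ T)
    {P : ValuationSubring (AlgebraicClosure ℚ)} (hP : P.LiesOverPrime p)
    (b : Module.Basis (Fin 2) T H.ρ.V)
    (hb : ∀ τ ∈ P.inertiaSubgroupIn ℚ, ∀ i, LinearMap.toMatrix b b (H.ρ.ρ τ) 1 i - (1 : M₂ T) 1 i ∈
      maximalIdeal T)
    {σ τ : Γℚ} (hσ : σ ∈ P.inertiaSubgroupIn ℚ) (hτ : τ ∈ P.inertiaSubgroupIn ℚ) (v : H.ρ.V) :
    H.ρ.ρ σ (H.ρ.ρ τ v - v) = LinearMap.det (H.ρ.ρ σ) • (H.ρ.ρ τ v - v) := by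
  have hred : IsReduced T := isReduced_datum hNS H
  rw [← sub_eq_zero]
  apply b.repr.injective
  ext i
  rw [map_zero, Finsupp.zero_apply]
  refine eq_zero_of_forall_prime (𝒪 := 𝒪) fun 𝔮 h𝔮 h𝔮0 => ?_
  -- the point
  have hinj : Function.Injective (algebraMap 𝒪 (T ⧸ 𝔮)) := by
    rw [injective_iff_map_eq_zero]
    intro a ha
    rw [IsScalarTower.algebraMap_apply 𝒪 T (T ⧸ 𝔮), Ideal.Quotient.algebraMap_eq,
      Ideal.Quotient.eq_zero_iff_mem, ← Ideal.mem_comap, h𝔮0, Ideal.mem_bot] at ha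
    exact ha
  have hfin : Module.Finite 𝒪 (T ⧸ 𝔮) :=
    Module.Finite.of_surjective (Ideal.Quotient.mkₐ 𝒪 𝔮).toLinearMap Ideal.Quotient.mk_surjective
  obtain ⟨R, _, _, _, _, _, _, f, hf, hfl, hfl'⟩ := LL.dvrExt (𝒪 := 𝒪) (T ⧸ 𝔮) hinj
  let φ : T →+* R := f.comp (Ideal.Quotient.mk 𝔮)
  have hφ : IsLocalHom φ := by
    have : IsLocalHom (Ideal.Quotient.mk 𝔮) :=
      IsLocalHom.of_surjective _ Ideal.Quotient.mk_surjective
    exact RingHom.isLocalHom_comp _ _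
  have hφ0 : ∀ x, φ x = 0 → x ∈ 𝔮 := by
    intro x hx
    rw [← Ideal.Quotient.eq_zero_iff_mem]
    exact hf (by rw [map_zero]; exact hx)
  apply hφ0
  have hpT : (p : T) ∈ maximalIdeal T := by
    have h1 := map_nonunit (algebraMap 𝒪 T) _ hp𝒪
    rwa [map_natCast] at h1
  have hpR : (p : R) ∈ maximalIdeal R := by
    have h1 := map_nonunit φ _ hpT
    rwa [map_natCast] at h1
  letI : Algebra T R := φ.toAlgebra
  let ρ' := H.ρ.baseChangeAlong φ hφ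
  let b' : Module.Basis (Fin 2) R ρ'.V := Algebra.TensorProduct.basis R b
  have hmat : ∀ σ, LinearMap.toMatrix b' b' (ρ'.ρ σ) = (LinearMap.toMatrix b b (H.ρ.ρ σ)).map φ :=
    fun σ => LinearMap.toMatrix_baseChange R (H.ρ.ρ σ) b b
  let e : H.ρ.V → ρ'.V := fun w => (1 : R) ⊗ₜ[T] w
  have he : ∀ v w, e (v - w) = e v - e w := fun v w => TensorProduct.tmul_sub _ _ _
  have hb' : ∀ (w : H.ρ.V) (i : Fin 2), b'.repr (e w) i = φ (b.repr w i) := by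
    intro w i
    change (Algebra.TensorProduct.basis R b).repr ((1 : R) ⊗ₜ[T] w) i = _
    rw [Algebra.TensorProduct.basis_repr_tmul, one_smul]
    rfl
  have hρ' : ∀ (σ : Γℚ) (w : H.ρ.V), ρ'.ρ σ (e w) = e (H.ρ.ρ σ w) := fun σ w => rfl
  have hdet' : ∀ σ, LinearMap.det (ρ'.ρ σ) = φ (LinearMap.det (H.ρ.ρ σ)) := fun σ => by
    rw [← LinearMap.det_toMatrix b', hmat, ← LinearMap.det_toMatrix b]
    exact (RingHom.map_det φ _).symm
  have key := star_point (ψ := φ.comp H.π) hG hp hp2 hNS hpS hpN hpR ρ' ?_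
    (absIrr_baseChange φ hφ H.ρ H.residual_absIrr) hP b' ?_ hσ hτ (e v)
  · rw [hρ', ← he, hρ', hdet'] at key
    have h3 : φ (b.repr (H.ρ.ρ σ (H.ρ.ρ τ v - v)) i) =
        φ (LinearMap.det (H.ρ.ρ σ)) * φ (b.repr (H.ρ.ρ τ v - v) i) := by
      rw [← hb', ← hb', key, map_smul, Finsupp.smul_apply, smul_eq_mul]
    rw [map_sub b.repr, Finsupp.sub_apply, map_smul b.repr, Finsupp.smul_apply, smul_eq_mul,
      map_sub φ, map_mul φ, h3, sub_self]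
  · intro ℓ hℓ hℓN hℓS A hA σ hσ
    have h1 : LinearMap.charpoly (ρ'.ρ σ) = (LinearMap.charpoly (H.ρ.ρ σ)).map φ :=
      LinearMap.charpoly_baseChange (H.ρ.ρ σ) R
    rw [h1, H.charpoly_frob ℓ hℓ hℓN hℓS A hA σ hσ]
    simp
  · intro τ hτ w
    have h1 := congrFun (LinearMap.toMatrix_mulVec_repr b' b' (ρ'.ρ τ) w) 1
    rw [Matrix.mulVec, dotProduct, Fin.sum_univ_two, hmat, Matrix.map_apply, Matrix.map_apply] at h1
    have h2 := hb τ hτ 0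
    have h3 := hb τ hτ 1
    rw [Matrix.one_apply_ne (by decide), sub_zero] at h2
    rw [Matrix.one_apply_eq] at h3
    have h4 : b'.repr (ρ'.ρ τ w - w) 1 = φ (LinearMap.toMatrix b b (H.ρ.ρ τ) 1 0) * b'.repr w 0 +
        φ (LinearMap.toMatrix b b (H.ρ.ρ τ) 1 1 - 1) * b'.repr w 1 := by
      rw [map_sub b'.repr, Finsupp.sub_apply, ← h1, map_sub φ, map_one φ]
      ring
    rw [h4]
    exact Ideal.add_mem _ (Ideal.mul_mem_right _ _ (map_nonunit φ _ h2))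
      (Ideal.mul_mem_right _ _ (map_nonunit φ _ h3))

/-- **S33** from the Steinberg condition at `p`. -/
theorem isOrdinaryAt_of_starP [Finite (IsLocalRing.ResidueField 𝒪)] [CharZero 𝒪]
    (hG : NewformStarP p) (hp : p.Prime) (hp2 : p ≠ 2)
    (hp𝒪 : (p : 𝒪) ∈ IsLocalRing.maximalIdeal 𝒪) (hN : p ∣ N ∧ ¬ p ^ 2 ∣ N)
    (hNS : ∀ q : ℕ, q.Prime → q ∣ N → q ∈ S)
    (H : CuspForm.HeckeGaloisRepDatum N (↑S : Set ℕ) 𝒪 θ T)
    (hres : (GaloisRepAdic.ofResidualGaloisRep H.ρ.residual).IsOrdinaryAt p) :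
    H.ρ.IsOrdinaryAt p := by
  intro P hP
  have hpT : (p : T) ∈ maximalIdeal T := by
    have h1 := map_nonunit (algebraMap 𝒪 T) _ hp𝒪
    rwa [map_natCast] at h1
  have hND : ∀ ℓ : ℕ, ℓ.Prime → ℓ ∉ S → ¬ ℓ ∣ N := fun ℓ hℓ hS h => hS (hNS ℓ hℓ h)
  have hdet : H.ρ.DetIsCyclotomic p := by
    refine Cheb.detIsCyclotomic_of_frobenius H.ρ hp hpT S fun ℓ hℓ hS P hP φ hφ => ?_
    exact (RepTwo.trace_det_of_charpoly H.ρ.finrank_eq (H.charpoly_frob ℓ hℓ (hND ℓ hℓ hS)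
      (fun h => hS (Finset.mem_coe.mp h)) P hP φ hφ)).2
  obtain ⟨σ₀, hσ₀, hc⟩ := exists_inertia hp hp2 hdet hP
  -- the residual line
  obtain ⟨L, ⟨bb, hL⟩, -, hI⟩ := hres P hP
  let bb' : Module.Basis (Fin 2) (ResidueField T) H.ρ.residual.V := bb
  obtain ⟨r, ⟨b, hb⟩, hr⟩ := exists_realizes_of_residual_isEquiv H.ρ
    (r' := fun σ => LinearMap.toMatrix bb' bb' (H.ρ.residual.ρ σ)) ⟨bb', fun σ => rfl⟩
    ⟨ResidualGaloisRep.Equiv.refl _⟩
  have hb1 : ∀ τ ∈ P.inertiaSubgroupIn ℚ, ∀ i,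
      LinearMap.toMatrix b b (H.ρ.ρ τ) 1 i - (1 : M₂ T) 1 i ∈ maximalIdeal T := by
    intro τ hτ i
    have h1 : residue T (LinearMap.toMatrix b b (H.ρ.ρ τ) 1 i) =
        bb'.repr (H.ρ.residual.ρ τ (bb' i)) 1 := by
      rw [hb τ]
      exact (congrFun (congrFun (hr τ) 1) i).trans (LinearMap.toMatrix_apply bb' bb' _ 1 i)
    have h3 := hI τ hτ (bb i)
    rw [hL, Submodule.mem_span_singleton] at h3
    obtain ⟨a, ha⟩ := h3
    have ha' : a • bb' 0 = H.ρ.residual.ρ τ (bb' i) - bb' i := ha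
    have h4 : H.ρ.residual.ρ τ (bb' i) = a • bb' 0 + bb' i := by
      rw [ha']
      exact (sub_add_cancel _ _).symm
    have h5 : residue T ((1 : M₂ T) 1 i) = bb'.repr (bb' i) 1 := by
      rw [bb'.repr_self, Matrix.one_apply, Finsupp.single_apply]
      by_cases h : i = 1
      · rw [if_pos h, if_pos h.symm, map_one]
      · rw [if_neg h, if_neg (Ne.symm h), map_zero]
    rw [← residue_eq_zero_iff, map_sub, h1, h4, h5, map_add, map_smul, Finsupp.add_apply,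
      Finsupp.smul_apply, bb'.repr_self 0, Finsupp.single_eq_of_ne (by decide), smul_zero,
      zero_add, sub_self]
  exact exists_line H.ρ hσ₀ hc (fun τ hτ v =>
    star_datum hG hp hp2 hp𝒪 hN.2 (hNS p hp hN.1) hNS H hP b hb1 hσ₀ hτ v)

end Datum

end Fermat.Agent.S33Lib
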