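import Mathlib
import Fermat.Agent.Petersson.Reduced
import Fermat.Agent.Eichler.Main
import Fermat.Prelude.Def_CuspForm_HeckeGaloisRepDatum

/-!
# The Hecke algebras are reduced: separation by points
-/

set_option autoImplicit false
set_option linter.unusedSectionVars false

open IsLocalRing Polynomial
open scoped TensorProduct nonZeroDivisors

namespace Fermat.Agent.S33Lib

/-- every element of a reduced finite `ℤ`-algebra is killed by a separable polynomial -/
theorem exists_separable {H : Type*} [CommRing H] [IsReduced H] [Module.Finite ℤ H] (h : H) :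
    ∃ m : ℚ[X], m.Separable ∧ ∀ (C : Type) [CommRing C] (i : ℚ →+* C) (f : H →+* C),
      eval₂ i (f h) m = 0 := by
  have hred : IsReduced (ℚ ⊗[ℤ] H) := by
    let _ : Algebra H (ℚ ⊗[ℤ] H) := Algebra.TensorProduct.rightAlgebra
    have : IsLocalization (Algebra.algebraMapSubmonoid H ℤ⁰) (ℚ ⊗[ℤ] H) :=
      IsLocalization.tensorRight ℚ ℤ⁰
    exact isReduced_localizationPreserves (Algebra.algebraMapSubmonoid H ℤ⁰) (ℚ ⊗[ℤ] H)
      inferInstance
  have hint : IsIntegral ℚ ((1 : ℚ) ⊗ₜ[ℤ] h : ℚ ⊗[ℤ] H) :=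
    Algebra.IsIntegral.isIntegral _
  refine ⟨minpoly ℚ ((1 : ℚ) ⊗ₜ[ℤ] h : ℚ ⊗[ℤ] H), ?_, ?_⟩
  · rw [PerfectField.separable_iff_squarefree]
    exact (isRadical_iff_squarefree_of_ne_zero (minpoly.ne_zero hint)).mp (minpoly.isRadical ℚ _)
  · intro C _ i f
    let g : ℚ ⊗[ℤ] H →+* C := (Algebra.TensorProduct.lift i.toIntAlgHom f.toIntAlgHom
      (fun _ _ => Commute.all _ _)).toRingHom
    have hg1 : g ((1 : ℚ) ⊗ₜ[ℤ] h) = f h := by
      change Algebra.TensorProduct.lift i.toIntAlgHom f.toIntAlgHom _ ((1 : ℚ) ⊗ₜ[ℤ] h) = f h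
      rw [Algebra.TensorProduct.lift_tmul, map_one, one_mul]
      rfl
    have hg2 : g.comp (algebraMap ℚ (ℚ ⊗[ℤ] H)) = i := Subsingleton.elim _ _
    have h1 := congrArg g (minpoly.aeval ℚ ((1 : ℚ) ⊗ₜ[ℤ] h : ℚ ⊗[ℤ] H))
    rw [aeval_def, hom_eval₂, map_zero, hg2, hg1] at h1
    exact h1

theorem isReduced_of_adjoin {H 𝒪 T : Type} [CommRing H] [IsReduced H] [Module.Finite ℤ H]
    [CommRing 𝒪] [IsDomain 𝒪] [CharZero 𝒪] [CommRing T] [Algebra 𝒪 T] [Module.Finite 𝒪 T]
    [Module.Free 𝒪 T] (π : H →+* T) (hπ : Algebra.adjoin 𝒪 (Set.range π) = ⊤) : IsReduced T := by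
  let K := FractionRing 𝒪
  have : CharZero K := charZero_of_injective_algebraMap (IsFractionRing.injective 𝒪 K)
  let E := K ⊗[𝒪] T
  have hinj : Function.Injective (Algebra.TensorProduct.includeRight : T →ₐ[𝒪] E) :=
    Algebra.TensorProduct.includeRight_injective (IsFractionRing.injective 𝒪 K)
  let L : E →ₐ[K] Module.End K E := Algebra.lmul K E
  have hcomm : ∀ a b : E, Commute (L a) (L b) := fun a b => by
    rw [Commute, SemiconjBy, ← map_mul, mul_comm, map_mul]
  have hH : ∀ h : H, (L ((1 : K) ⊗ₜ[𝒪] π h)).IsSemisimple := by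
    intro h
    obtain ⟨m, hm, hm2⟩ := exists_separable h
    have h1 := hm2 E ((algebraMap K E).comp (algebraMap ℚ K))
      ((Algebra.TensorProduct.includeRight : T →ₐ[𝒪] E).toRingHom.comp π)
    refine Module.End.isSemisimple_of_squarefree_aeval_eq_zero
      (p := m.map (algebraMap ℚ K)) (hm.map).squarefree ?_
    rw [aeval_algHom_apply, aeval_def, eval₂_map]
    have h2 : eval₂ ((algebraMap K E).comp (algebraMap ℚ K)) ((1 : K) ⊗ₜ[𝒪] π h) m = 0 := h1
    rw [h2, map_zero]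
  have halg : ∀ k : K, (L (algebraMap K E k)).IsSemisimple := by
    intro k
    refine Module.End.isSemisimple_of_squarefree_aeval_eq_zero (p := X - C k)
      (irreducible_X_sub_C k).squarefree ?_
    rw [map_sub, aeval_X, aeval_C, AlgHom.commutes, sub_self]
  have hT : ∀ t : T, (L ((1 : K) ⊗ₜ[𝒪] t)).IsSemisimple := by
    intro t
    have ht : t ∈ Algebra.adjoin 𝒪 (Set.range π) := by rw [hπ]; trivial
    induction ht using Algebra.adjoin_induction with
    | mem x hx =>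
      obtain ⟨h, rfl⟩ := hx
      exact hH h
    | algebraMap r =>
      have h1 : (1 : K) ⊗ₜ[𝒪] algebraMap 𝒪 T r = algebraMap K E (algebraMap 𝒪 K r) := by
        rw [Algebra.algebraMap_eq_smul_one, TensorProduct.tmul_smul,
          Algebra.TensorProduct.algebraMap_apply, TensorProduct.smul_tmul',
          Algebra.smul_def, mul_one]
        rfl
      rw [h1]
      exact halg _
    | add x y _ _ hx hy =>
      rw [TensorProduct.tmul_add, map_add]
      exact hx.add_of_commute (hcomm _ _) hy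
    | mul x y _ _ hx hy =>
      have h1 : (1 : K) ⊗ₜ[𝒪] (x * y) = ((1 : K) ⊗ₜ[𝒪] x) * ((1 : K) ⊗ₜ[𝒪] y : E) := by
        rw [Algebra.TensorProduct.tmul_mul_tmul, one_mul]
      rw [h1, map_mul]
      exact hx.mul_of_commute (hcomm _ _) hy
  have hC : ∀ c : E, (L c).IsSemisimple := by
    intro c
    induction c using TensorProduct.induction_on with
    | zero => rw [map_zero]; exact Module.End.isSemisimple_zero
    | tmul k t =>
      have h1 : k ⊗ₜ[𝒪] t = k • ((1 : K) ⊗ₜ[𝒪] t : E) := by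
        rw [TensorProduct.smul_tmul', smul_eq_mul, mul_one]
      rw [h1, map_smul]
      exact Module.End.IsSemisimple_smul k (hT t)
    | add x y hx hy =>
      rw [map_add]
      exact hx.add_of_commute (hcomm _ _) hy
  refine ⟨fun t ht => ?_⟩
  have h1 : IsNilpotent (L ((1 : K) ⊗ₜ[𝒪] t)) := by
    have h2 : IsNilpotent ((Algebra.TensorProduct.includeRight : T →ₐ[𝒪] E) t) := ht.map _
    exact h2.map L
  have h2 := Module.End.eq_zero_of_isNilpotent_isSemisimple h1 (hT t)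
  apply hinj
  rw [map_zero]
  have h3 : L ((1 : K) ⊗ₜ[𝒪] t) 1 = 0 := by rw [h2]; rfl
  have h4 : L ((1 : K) ⊗ₜ[𝒪] t) 1 = (1 : K) ⊗ₜ[𝒪] t := mul_one _
  exact h4.symm.trans h3

/-- the primes above `0` separate -/
theorem eq_zero_of_forall_prime {𝒪 T : Type} [CommRing 𝒪] [IsDomain 𝒪] [CommRing T] [IsReduced T]
    [Algebra 𝒪 T] [Module.Free 𝒪 T] {x : T}
    (h : ∀ 𝔮 : Ideal T, 𝔮.IsPrime → 𝔮.comap (algebraMap 𝒪 T) = ⊥ → x ∈ 𝔮) : x = 0 := by
  have h1 : x ∈ (⊥ : Ideal T).radical := by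
    rw [← Ideal.sInf_minimalPrimes, Ideal.mem_sInf]
    intro 𝔮 h𝔮
    refine h 𝔮 h𝔮.1.1 ?_
    rw [eq_bot_iff]
    intro r hr
    rw [Ideal.mem_bot]
    by_contra hr0
    rw [Ideal.mem_comap] at hr
    refine notMem_nonZeroDivisors_of_mem_mem_minimalPrimes hr h𝔮 ?_
    rw [mem_nonZeroDivisors_iff_right]
    intro y hy
    rw [mul_comm, ← Algebra.smul_def] at hy
    have : Module.IsTorsionFree 𝒪 T := inferInstance
    exact (smul_eq_zero.mp hy).resolve_left hr0
  have h2 : IsNilpotent x := by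
    rw [Ideal.mem_radical_iff] at h1
    exact h1
  exact h2.eq_zero

/-- the coefficient ring of a Hecke Galois representation datum is reduced -/
theorem isReduced_datum {N : ℕ} [NeZero N] {S : Finset ℕ}
    {𝒪 : Type} [CommRing 𝒪] [IsDomain 𝒪] [IsDiscreteValuationRing 𝒪]
    [IsAdicComplete (IsLocalRing.maximalIdeal 𝒪) 𝒪]
    {θ : CuspForm.heckeAlgebra N 2 (↑S : Set ℕ) →+* IsLocalRing.ResidueField 𝒪}
    {T : Type} [CommRing T] [IsLocalRing T] [IsNoetherianRing T]
    [IsAdicComplete (IsLocalRing.maximalIdeal T) T] [Algebra 𝒪 T] [IsLocalHom (algebraMap 𝒪 T)]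
    [Module.Finite 𝒪 T] [Module.Free 𝒪 T] [CharZero 𝒪]
    (hNS : ∀ q : ℕ, q.Prime → q ∣ N → q ∈ S)
    (H : CuspForm.HeckeGaloisRepDatum N (↑S : Set ℕ) 𝒪 θ T) : IsReduced T := by
  have : IsReduced (CuspForm.heckeAlgebra N 2 (↑S : Set ℕ)) :=
    Petersson.isReduced_heckeAlgebra (fun q hq hqN => Finset.mem_coe.mpr (hNS q hq hqN))
  have : Module.Finite ℤ (CuspForm.heckeAlgebra N 2 (↑S : Set ℕ)) :=
    Eichler.moduleFinite_heckeAlgebra 2 _
  exact isReduced_of_adjoin H.π H.adjoin_range_π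

end Fermat.Agent.S33Lib
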