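import Fermat.Agent.S33Lib.Main
import Fermat.Agent.LL.NFOrdDef

/-!
# Strict ordinarity from the Steinberg condition at `p`
-/

set_option autoImplicit false
set_option linter.unusedSectionVars false

open IsLocalRing Polynomial CongruenceSubgroup ModularFormClass CuspForm

namespace Fermat.Agent.S33Lib

open Fermat.Agent.Newform Fermat.Agent.DefRing Fermat.Agent.TwoAdic

local notation "Γℚ" => (AlgebraicClosure ℚ ≃ₐ[ℚ] AlgebraicClosure ℚ)

theorem unr_sq {R : Type*} [CommRing R] {v : ℕ} {u : R} (hu : u ^ 2 = 1) (g : Γℚ) :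
    unr v u g * unr v u g = 1 := by
  unfold unr
  split_ifs
  · exact one_mul 1
  · rw [← pow_two, hu]

theorem StarAtRep.apply {R : Type} [CommRing R] [IsLocalRing R] {ρ : GaloisRepAdic R} {v : ℕ}
    {u : R} (h : StarAtRep ρ v u) {P : ValuationSubring (AlgebraicClosure ℚ)}
    (hP : P.LiesOverPrime v) {g k : Γℚ} (hg : g ∈ P.decompositionSubgroup ℚ)
    (hk : k ∈ P.decompositionSubgroup ℚ) (x : ρ.V) :
    ρ.ρ g (ρ.ρ k x - unr v u k • x) =
      (LinearMap.det (ρ.ρ g) * unr v u g) • (ρ.ρ k x - unr v u k • x) := by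
  have h1 := LinearMap.congr_fun (h P hP g hg k hk) x
  rw [Module.End.mul_apply, LinearMap.sub_apply, LinearMap.sub_apply,
    Module.algebraMap_end_apply, Module.algebraMap_end_apply, LinearMap.zero_apply,
    sub_eq_zero] at h1
  exact h1

theorem mem_decomposition_of_mem_inertia {P : ValuationSubring (AlgebraicClosure ℚ)} {σ : Γℚ}
    (hσ : σ ∈ P.inertiaSubgroupIn ℚ) : σ ∈ P.decompositionSubgroup ℚ :=
  ((Frob.mem_inertiaSubgroupIn_iff P σ).1 hσ).1

theorem eq_one_or_neg_one {a : ℂ} (h : a ^ 2 = 1) : a = 1 ∨ a = -1 := by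
  have h1 : (a - 1) * (a + 1) = 0 := by linear_combination h
  rcases mul_eq_zero.mp h1 with h2 | h2
  · exact Or.inl (by linear_combination h2)
  · exact Or.inr (by linear_combination h2)

/-- the Steinberg condition at `p` implies that `ρ` is strictly ordinary at `p` -/
theorem isStrictOrdinaryAt_of_star {p : ℕ} (hp : p.Prime) (hp2 : p ≠ 2) {R : Type} [CommRing R]
    [IsLocalRing R] {ρ : GaloisRepAdic R} (hdet : ρ.DetIsCyclotomic p) {u : R} (hu : u ^ 2 = 1)
    (hstar : StarAtRep ρ p u) : ρ.IsStrictOrdinaryAt p := by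
  classical
  refine ⟨hdet.1, fun P hP => ?_⟩
  obtain ⟨σ₀, hσ₀, hc⟩ := exists_inertia hp hp2 hdet hP
  have hID : ∀ σ ∈ P.inertiaSubgroupIn ℚ, σ ∈ P.decompositionSubgroup ℚ :=
    fun σ hσ => mem_decomposition_of_mem_inertia hσ
  have hev : ∀ σ ∈ P.inertiaSubgroupIn ℚ, unr p u σ = 1 := fun σ hσ =>
    if_pos (isEven_of_mem_inertia hp hP hσ)
  set c := LinearMap.det (ρ.ρ σ₀) with hcdef
  have hcu : IsUnit c := by
    have h : c * LinearMap.det (ρ.ρ σ₀⁻¹) = 1 := by
      rw [hcdef, ← map_mul, ← map_mul, mul_inv_cancel, map_one, map_one]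
    exact IsUnit.of_mul_eq_one _ h
  have hrel : ∀ k ∈ P.decompositionSubgroup ℚ, ∀ v : ρ.V,
      ρ.ρ σ₀ (ρ.ρ k v - unr p u k • v) = c • (ρ.ρ k v - unr p u k • v) := by
    intro k hk v
    have h1 := StarAtRep.apply hstar hP (hID σ₀ hσ₀) hk v
    rwa [hev σ₀ hσ₀, mul_one] at h1
  obtain ⟨b, hb0, hb1⟩ := exists_eigenbasis_aux (Module.finBasisOfFinrankEq R ρ.V ρ.finrank_eq)
    (ρ.ρ σ₀) hc hcu rfl (fun v => by
      have h1 := hrel σ₀ (hID σ₀ hσ₀) v
      rwa [hev σ₀ hσ₀, one_smul] at h1)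
  have hrepr : ∀ v ∈ Submodule.span R {b 0}, v = b.repr v 0 • b 0 := by
    intro v hv
    obtain ⟨a, rfl⟩ := Submodule.mem_span_singleton.mp hv
    simp
  have hmem : ∀ v : ρ.V, ρ.ρ σ₀ v = c • v → v ∈ Submodule.span R {b 0} := by
    intro v hv
    have h1 : v = b.repr v 0 • b 0 + b.repr v 1 • b 1 := by
      conv_lhs => rw [← b.sum_repr v]
      rw [Fin.sum_univ_two]
    have h2 : b.repr (ρ.ρ σ₀ v) 1 = b.repr v 1 := by
      conv_lhs => rw [h1]
      rw [map_add, map_smul, map_smul, hb0, hb1, map_add, map_smul, map_smul, map_smul,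
        Finsupp.add_apply, Finsupp.smul_apply, Finsupp.smul_apply, Finsupp.smul_apply,
        b.repr_self, b.repr_self, Finsupp.single_eq_same, Finsupp.single_eq_of_ne (by decide)]
      simp
    rw [hv, map_smul, Finsupp.smul_apply, smul_eq_mul] at h2
    have h3 : b.repr v 1 = 0 := by
      have : (c - 1) * b.repr v 1 = 0 := by linear_combination h2
      exact hc.mul_right_eq_zero.mp this
    rw [h1, h3, zero_smul, add_zero]
    exact Submodule.smul_mem _ _ (Submodule.mem_span_singleton_self _)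
  have hL : ∀ k ∈ P.decompositionSubgroup ℚ, ∀ v : ρ.V,
      ρ.ρ k v - unr p u k • v ∈ Submodule.span R {b 0} := fun k hk v => hmem _ (hrel k hk v)
  have hD : ∀ k ∈ P.decompositionSubgroup ℚ, ∀ v ∈ Submodule.span R {b 0},
      ρ.ρ k v ∈ Submodule.span R {b 0} := by
    intro k hk v hv
    have h1 := Submodule.add_mem _ (hL k hk v) (Submodule.smul_mem _ (unr p u k) hv)
    rwa [sub_add_cancel] at h1
  have hb0L : b 0 ∈ Submodule.span R {b 0} := Submodule.mem_span_singleton_self _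
  refine ⟨Submodule.span R {b 0}, ⟨b, rfl⟩, hD, ?_, ?_⟩
  · intro σ hσ v
    have h1 := hL σ (hID σ hσ) v
    rwa [hev σ hσ, one_smul] at h1
  · intro σ hσ
    set z := unr p u σ with hz
    have hzz : z * z = 1 := unr_sq hu σ
    have hx0 := hrepr _ (hD σ hσ (b 0) hb0L)
    set x := b.repr (ρ.ρ σ (b 0)) 0 with hx
    refine ⟨x, z, ?_, hL σ hσ, ?_⟩
    · intro w hw
      rw [hrepr w hw, LinearMap.map_smul, hx0, smul_comm]
    · intro n a ha
      have hdetσ : LinearMap.det (ρ.ρ σ) = x * z := by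
        rw [← LinearMap.det_toMatrix b, Matrix.det_fin_two]
        have e00 : LinearMap.toMatrix b b (ρ.ρ σ) 0 0 = x := LinearMap.toMatrix_apply _ _ _ _ _
        have e10 : LinearMap.toMatrix b b (ρ.ρ σ) 1 0 = 0 := by
          rw [LinearMap.toMatrix_apply, hx0, map_smul, b.repr_self]
          simp
        have e11 : LinearMap.toMatrix b b (ρ.ρ σ) 1 1 = z := by
          have h1 : ρ.ρ σ (b 1) = b.repr (ρ.ρ σ (b 1) - z • b 1) 0 • b 0 + z • b 1 := by
            rw [← hrepr _ (hL σ hσ (b 1)), sub_add_cancel]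
          rw [LinearMap.toMatrix_apply, h1]
          simp
        rw [e00, e10, e11]
        ring
      have h1 := hdet.2 n σ a ha
      have h2 : x - (a : R) * z = z * (LinearMap.det (ρ.ρ σ) - (a : R)) := by
        rw [hdetσ]
        linear_combination (-x) * hzz
      rw [h2]
      exact Ideal.mul_mem_left _ _ h1

/-- **R5** from the Steinberg condition at `p` for newforms. -/
theorem nfOrd_of (hG : ∀ p : ℕ, p.Prime → p ≠ 2 → NewformStarP p) : LL.NFOrdStmt := by
  intro M _ g hg p hp hp2 hpM hpM2 S hpS hMS R _ _ _ _ _ _ hpR D ι hD ρ hρ habs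
  have hap := newform_exact hp hpM hpM2 hg
  have hv : qCoeff g p ∈ D := by
    rcases eq_one_or_neg_one hap with h | h
    · rw [h]; exact D.one_mem
    · rw [h]; exact D.neg_mem D.one_mem
  have hu : (ι ⟨_, hv⟩ : R) ^ 2 = 1 := by
    rw [← map_pow, ← map_one ι]
    congr 1
    exact Subtype.ext hap
  have hdet : ρ.DetIsCyclotomic p := by
    have : Fact p.Prime := ⟨hp⟩
    refine Cheb.detIsCyclotomic_of_frobenius ρ hp hpR S fun ℓ hℓ hS P hP φ hφ => ?_
    exact (RepTwo.trace_det_of_charpoly ρ.finrank_eq (hρ ℓ hℓ hS P hP φ hφ)).2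
  exact isStrictOrdinaryAt_of_star hp hp2 hdet hu
    (hG p hp hp2 hg hp hpM hpM2 S hpS hMS R hpR D ι hD hv ρ hρ habs)

end Fermat.Agent.S33Lib
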